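import Fermat.Agent.OrdO.Fun
import Fermat.Agent.FlatJ.General

/-!
# The Weil pairing on the kernel of specialization
-/

set_option autoImplicit false
set_option linter.unusedSectionVars false

noncomputable section

open AlgebraicCurve Module

namespace Fermat.Agent.OrdO

open Fermat.Agent.FunField Fermat.Agent.FunField.PlaceLemmas Fermat.Agent.S27C
  Fermat.Agent.TorsInj Fermat.Agent.Deuring Fermat.Agent.FlatJ

attribute [local instance] Fermat.Agent.WeilPairing.isCurveOver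

variable {L k F F₁ : Type} [Field L] [Field k] [Field F] [Field F₁] [Algebra L F]
  [Algebra k F₁] [IsFF L F] [IsFF k F₁] [IsAlgClosed L] [IsAlgClosed k]
  {𝔇 : Data L k F F₁} {r : Place L F → Place k F₁} {P₀ : Place L F}
  {G : Type} {ρ : G → SemilinearAut L F}

/-- The class specializes to zero. -/
def SpZ (r : Place L F → Place k F₁) (y : Pic0 L F) : Prop :=
  ∀ D : Divisor.degZero (K := L) (F := F), Pic0.mk D = y →
    Divisor.IsPrincipal (Finsupp.mapDomain r (D : Divisor L F) : Divisor k F₁)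

theorem exists_w (hbas : HasBasis 𝔇 P₀ ρ) (hlift : HasLift 𝔇 ρ) {y : Pic0 L F}
    {E : Divisor L F} {m : ℕ} (hE : IsEffRep P₀ y E) (hdeg : Divisor.degree E = m)
    (hm : 𝔇.red (riemannRochSpace (Finsupp.single P₀ (m : ℤ))) =
      riemannRochSpace (Finsupp.single (r P₀) (m : ℤ))) (hy : SpZ r y) :
    ∃ w : 𝔇.O, (w : F) ∈ riemannRochSpace (Finsupp.single P₀ (m : ℤ)) ∧ 𝔇.res w ≠ 0 ∧
      (∀ g, ρ g • (w : F) = w) ∧
      Finsupp.mapDomain r E = divOf (𝔇.res w) + Finsupp.single (r P₀) (m : ℤ) := by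
  obtain ⟨h0, D, hD, hDE⟩ := hE
  have h1 := hy D hD
  rw [isPrincipal_iff_divOf, hDE, hdeg, Finsupp.mapDomain_sub, Finsupp.mapDomain_single] at h1
  obtain ⟨gb, hgb0, hgb⟩ := h1
  have h2 : Finsupp.mapDomain r E = divOf gb + Finsupp.single (r P₀) (m : ℤ) := by
    rw [← hgb, sub_add_cancel]
  obtain ⟨w, hw1, hw2, hw3⟩ := exists_lift_fun (r := r) hbas hlift hm (gb := gb) (by
    rw [mem_rr_iff_divOf hgb0, add_comm, ← h2]
    exact Deuring.mapDomain_nonneg r h0)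
  exact ⟨w, hw1, by rw [hw2]; exact hgb0, hw3, by rw [hw2]; exact h2⟩

/-- **The Weil pairing of two classes in the kernel of specialization**, one of them rational
over a field with small ramification. -/
theorem weil_sub_one_mem (hr : 𝔇.IsFullRed r) (hP₀ : ∀ g, ρ g • P₀ = P₀)
    (hbas : HasBasis 𝔇 P₀ ρ) (hlift : HasLift 𝔇 ρ) (J : Ideal 𝔇.A)
    (hram : ∀ a : 𝔇.A, 𝔇.π a = 0 → (∀ g, SemilinearAut.baseAut (ρ g) (a : L) = a) → a ∈ J)
    {n : ℕ} {x b : Pic0 L F} (hx : n • x = 0) (hb : n • b = 0) (hbG : ∀ g, ρ g • b = b)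
    (hx0 : SpZ r x) (hb0 : SpZ r b) :
    ∃ w ∈ J * RingHom.ker 𝔇.π, (Fermat.Agent.WeilPairing.weil n x b : L) = 1 + (w : L) := by
  classical
  obtain ⟨c₁, hc₁⟩ := hr.rr
  have hrr : ∀ m : ℕ, c₁ ≤ m → 𝔇.red (riemannRochSpace (Finsupp.single P₀ (m : ℤ))) =
      riemannRochSpace (Finsupp.single (r P₀) (m : ℤ)) := by
    intro m hm
    rw [hc₁ _ (by rw [Divisor.degree_single, Deuring.deg_eq_one]; simpa using hm),
      Finsupp.mapDomain_single]
  -- the divisor of `b`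
  obtain ⟨E₀, hE₀⟩ := exists_isMinEffRep P₀ b
  have hE₀G : ∀ g, ρ g • E₀ = E₀ := by
    intro g
    have h1 := hE₀.smul (ρ g) (hP₀ g)
    rw [hbG] at h1
    exact h1.unique hE₀
  obtain ⟨d, hd⟩ : ∃ d : ℕ, max (Divisor.degree E₀) c₁ ≤ d := ⟨_, Int.self_le_toNat _⟩
  have hd1 : Divisor.degree E₀ ≤ d := (le_max_left _ _).trans hd
  have hd2 : c₁ ≤ d := (le_max_right _ _).trans hd
  set Eb : Divisor L F := E₀ + Finsupp.single P₀ ((d : ℤ) - Divisor.degree E₀) with hEb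
  have hEbdeg : Divisor.degree Eb = d := by
    rw [hEb, map_add, Divisor.degree_single, Deuring.deg_eq_one]
    simp
  have hEbrep : IsEffRep P₀ b Eb := by
    obtain ⟨h0, D, hD, hDE⟩ := hE₀.1
    refine ⟨add_nonneg h0 (Deuring.single_nonneg _ (by omega)), D, hD, ?_⟩
    rw [hEbdeg, hDE, hEb, Finsupp.single_sub]
    abel
  have hEbG : ∀ g, ρ g • Eb = Eb := by
    intro g
    rw [hEb, smul_add, hE₀G, SemilinearAut.smul_single, hP₀]
  obtain ⟨wb, hwb, hwb0, hwbinv, hwbE⟩ := exists_w (r := r) hbas hlift hEbrep hEbdeg (hrr d hd2) hb0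
  set Ewb : Divisor L F := divOf (wb : F) + Finsupp.single P₀ (d : ℤ) with hEwb
  have hwbF0 : (wb : F) ≠ 0 := 𝔇.coe_ne_zero_of_res_ne_zero hwb0
  have hEwb0 : 0 ≤ Ewb := by
    rw [hEwb, add_comm]
    exact (mem_rr_iff_divOf hwbF0).1 hwb
  have hrEwb : Finsupp.mapDomain r Ewb = Finsupp.mapDomain r Eb := by
    rw [hEwb, Finsupp.mapDomain_add, mapDomain_divOf hr.toIsRed hwb0, Finsupp.mapDomain_single,
      hwbE]
  have hEwbG : ∀ g, ρ g • Ewb = Ewb := by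
    intro g
    rw [hEwb, smul_add, ← divOf_smul', hwbinv, SemilinearAut.smul_single, hP₀]
  have hEwbdeg : Divisor.degree Ewb = d := by
    rw [hEwb, map_add, degree_divOf, Divisor.degree_single, Deuring.deg_eq_one]
    simp
  -- bad places
  set Z : Finset (Place k F₁) := insert (r P₀) (Finsupp.mapDomain r Eb).support with hZ
  have hZ0 : r P₀ ∈ Z := Finset.mem_insert_self _ _
  have hZof : ∀ D : Divisor L F, 0 ≤ D → Finsupp.mapDomain r D = Finsupp.mapDomain r Eb →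
      ∀ Q, D Q ≠ 0 → r Q ∈ Z := by
    intro D hD hDr Q hQ
    refine Finset.mem_insert_of_mem (Finsupp.mem_support_iff.2 ?_)
    rw [← hDr]
    have h1 := le_mapDomain_apply r D Q (fun Q' _ => Finsupp.le_def.1 hD Q')
    have h2 : 0 ≤ D Q := Finsupp.le_def.1 hD Q
    omega
  have hZEb := hZof Eb hEbrep.1 rfl
  have hZEwb := hZof Ewb hEwb0 hrEwb
  -- the divisor of `x`
  obtain ⟨c, hc⟩ := exists_avoiding hr P₀ x
  obtain ⟨m, hm⟩ : ∃ m : ℕ, max c c₁ ≤ m := ⟨_, Int.self_le_toNat _⟩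
  obtain ⟨Ex, hEx, hExdeg, hExZ⟩ := hc m ((le_max_left _ _).trans hm) Z ⟨_, hZ0⟩
  obtain ⟨wx, hwx, hwx0, hwxinv, hwxE⟩ := exists_w (r := r) hbas hlift hEx hExdeg
    (hrr m ((le_max_right _ _).trans hm)) hx0
  set Ewx : Divisor L F := divOf (wx : F) + Finsupp.single P₀ (m : ℤ) with hEwx
  have hwxF0 : (wx : F) ≠ 0 := 𝔇.coe_ne_zero_of_res_ne_zero hwx0
  have hEwx0 : 0 ≤ Ewx := by
    rw [hEwx, add_comm]
    exact (mem_rr_iff_divOf hwxF0).1 hwx
  have hrEwx : Finsupp.mapDomain r Ewx = Finsupp.mapDomain r Ex := by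
    rw [hEwx, Finsupp.mapDomain_add, mapDomain_divOf hr.toIsRed hwx0, Finsupp.mapDomain_single,
      hwxE]
  have hEwxdeg : Divisor.degree Ewx = m := by
    rw [hEwx, map_add, degree_divOf, Divisor.degree_single, Deuring.deg_eq_one]
    simp
  have hnot : ∀ D : Divisor L F, 0 ≤ D → Finsupp.mapDomain r D = Finsupp.mapDomain r Ex →
      ∀ Q, r Q ∈ Z → D Q = 0 := by
    intro D hD hDr Q hQ
    have h1 := le_mapDomain_apply r D Q (fun Q' _ => Finsupp.le_def.1 hD Q')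
    rw [hDr, hExZ _ hQ] at h1
    exact le_antisymm h1 (Finsupp.le_def.1 hD Q)
  have hExQ := hnot Ex hEx.1 rfl
  have hEwxQ := hnot Ewx hEwx0 hrEwx
  -- the functions
  obtain ⟨ι, hι, v, μ, hμ, hfx0, hfxdiv, hvreg, hvinv, -⟩ := exists_norm_fun hr.toIsRed hP₀ hbas
    hlift hx hEx hExdeg hwx hwx0 hwxinv hwxE
  obtain ⟨κ, hκ, v', μ', hμ', hfb0, hfbdiv, hvreg', -, hμG⟩ := exists_norm_fun hr.toIsRed hP₀ hbas
    hlift hb hEbrep hEbdeg hwb hwb0 hwbinv hwbE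
  have hμJ : ∀ i, μ' i ∈ J := fun i => hram _ (hμ' i) fun g => hμG hEbG g i
  -- regularity
  have hr1 : ∀ Q, r Q ∈ Z → ∀ Q', r Q' = r Q → ∀ i, ((v i : 𝔇.O) : F) ∈ Q'.toValuationSubring :=
    fun Q hQ Q' hQ' i => hvreg Q' (hEwxQ Q' (by rw [hQ']; exact hQ)) i
  have hr2 : ∀ Q, r Q ∉ Z → ∀ Q', r Q' = r Q → ∀ i,
      ((v' i : 𝔇.O) : F) ∈ Q'.toValuationSubring := fun Q hQ Q' hQ' i => hvreg' Q' (by
    by_contra h
    exact hQ (hQ' ▸ hZEwb Q' h)) i
  have hv1 : ∀ Q, r Q ∈ Z → ∀ i, val Q ((v i : 𝔇.O) : F) ∈ 𝔇.A := fun Q hQ i =>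
    (val_red hr.toIsRed (v i) Q fun Q' hQ' => hr1 Q hQ Q' hQ' i).choose
  have hv2 : ∀ Q, r Q ∉ Z → ∀ i, val Q ((v' i : 𝔇.O) : F) ∈ 𝔇.A := fun Q hQ i =>
    (val_red hr.toIsRed (v' i) Q fun Q' hQ' => hr2 Q hQ Q' hQ' i).choose
  have hZEx : ∀ Q, Ex Q ≠ 0 → r Q ∉ Z := fun Q hQ h => hQ (hExQ Q h)
  have hZEwx : ∀ Q, Ewx Q ≠ 0 → r Q ∉ Z := fun Q hQ h => hQ (hEwxQ Q h)
  -- the values
  set e₁ := MvPolynomial.eval μ (PE v (nat Eb)) with he₁
  set e₂ := MvPolynomial.eval μ (PE v (nat Ewb)) with he₂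
  set e₃ := MvPolynomial.eval μ' (PE v' (nat Ex)) with he₃
  set e₄ := MvPolynomial.eval μ' (PE v' (nat Ewx)) with he₄
  have hE1 := evalDiv_eq v hEbrep.1 (fun Q hQ i => hr1 Q (hZEb Q hQ) Q rfl i)
    (fun Q hQ i => hv1 Q (hZEb Q hQ) i) μ
  have hE2 := evalDiv_eq v hEwb0 (fun Q hQ i => hr1 Q (hZEwb Q hQ) Q rfl i)
    (fun Q hQ i => hv1 Q (hZEwb Q hQ) i) μ
  have hE3 := evalDiv_eq v' hEx.1 (fun Q hQ i => hr2 Q (hZEx Q hQ) Q rfl i)
    (fun Q hQ i => hv2 Q (hZEx Q hQ) i) μ'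
  have hE4 := evalDiv_eq v' hEwx0 (fun Q hQ i => hr2 Q (hZEwx Q hQ) Q rfl i)
    (fun Q hQ i => hv2 Q (hZEwx Q hQ) i) μ'
  have hnatG : ∀ D : Divisor L F, 0 ≤ D → ∀ g, ρ g • D = D →
      Finsupp.mapDomain (ρ g • ·) (nat D) = nat D := by
    intro D hD g hg
    rw [mapDomain_nat (r := (ρ g • ·)) hD]
    congr 1
  -- differences
  have h12 : e₁ - e₂ ∈ J * RingHom.ker 𝔇.π := by
    refine eval_sub_mem _ _ (by rw [coeff_zero_PE, coeff_zero_PE]) (fun s => ?_) μ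
      (fun i => (RingHom.mem_ker).2 (hμ i))
    refine hram _ ?_ fun g => ?_
    · have h1 := map_PE hr.toIsRed v (nat Eb) fun Q hQ => hr1 Q (hZEb Q (nat_ne_zero hQ))
      have h2 := map_PE hr.toIsRed v (nat Ewb) fun Q hQ => hr1 Q (hZEwb Q (nat_ne_zero hQ))
      rw [mapDomain_nat hEbrep.1] at h1
      rw [mapDomain_nat hEwb0, hrEwb, ← h1] at h2
      rw [map_sub, ← MvPolynomial.coeff_map, ← MvPolynomial.coeff_map, h2, sub_self]
    · rw [AddSubgroupClass.coe_sub, map_sub,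
        coeff_PE_fixed v (nat Eb) (fun Q hQ i => hr1 Q (hZEb Q (nat_ne_zero hQ)) Q rfl i)
          (fun Q hQ i => hv1 Q (hZEb Q (nat_ne_zero hQ)) i) (ρ g) (hvinv g)
          (hnatG _ hEbrep.1 g (hEbG g)),
        coeff_PE_fixed v (nat Ewb) (fun Q hQ i => hr1 Q (hZEwb Q (nat_ne_zero hQ)) Q rfl i)
          (fun Q hQ i => hv1 Q (hZEwb Q (nat_ne_zero hQ)) i) (ρ g) (hvinv g)
          (hnatG _ hEwb0 g (hEwbG g))]
  have h34 : e₃ - e₄ ∈ J * RingHom.ker 𝔇.π := by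
    rw [mul_comm]
    refine eval_sub_mem _ _ (by rw [coeff_zero_PE, coeff_zero_PE]) (fun s => ?_) μ' hμJ
    rw [RingHom.mem_ker]
    have h1 := map_PE hr.toIsRed v' (nat Ex) fun Q hQ => hr2 Q (hZEx Q (nat_ne_zero hQ))
    have h2 := map_PE hr.toIsRed v' (nat Ewx) fun Q hQ => hr2 Q (hZEwx Q (nat_ne_zero hQ))
    rw [mapDomain_nat hEx.1] at h1
    rw [mapDomain_nat hEwx0, hrEwx, ← h1] at h2
    rw [map_sub, ← MvPolynomial.coeff_map, ← MvPolynomial.coeff_map, h2, sub_self]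
  -- units
  have hunit : ∀ {ι : Type} [Fintype ι] (v : ι → 𝔇.O) (μ : ι → 𝔇.A) (n : Place L F →₀ ℕ),
      (∀ i, 𝔇.π (μ i) = 0) → IsUnit (MvPolynomial.eval μ (PE v n)) := by
    intro ι _ v μ n hμ
    have h1 : MvPolynomial.eval μ (PE v n) - MvPolynomial.eval μ (1 : MvPolynomial ι 𝔇.A) ∈
        (⊤ : Ideal 𝔇.A) * RingHom.ker 𝔇.π := by
      refine eval_sub_mem _ _ ?_ (fun s => Submodule.mem_top) μ (fun i => (RingHom.mem_ker).2 (hμ i))
      rw [coeff_zero_PE, MvPolynomial.coeff_zero_one]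
    rw [map_one, Ideal.top_mul, RingHom.mem_ker, map_sub, map_one, sub_eq_zero] at h1
    by_contra hnu
    rw [← 𝔇.π_ker, h1] at hnu
    exact one_ne_zero hnu
  have hu2 := hunit v μ (nat Ewb) hμ
  have hu3 := hunit v' μ' (nat Ex) hμ'
  rw [← he₂] at hu2
  rw [← he₃] at hu3
  have hu1 := hunit v μ (nat Eb) hμ
  have hu4 := hunit v' μ' (nat Ewx) hμ'
  rw [← he₁] at hu1
  rw [← he₄] at hu4
  -- the pairing
  have hxm : Ex - Ewx ∈ Divisor.degZero (K := L) (F := F) := by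
    rw [Divisor.mem_degZero, map_sub, hExdeg, hEwxdeg, sub_self]
  have hbm : Eb - Ewb ∈ Divisor.degZero (K := L) (F := F) := by
    rw [Divisor.mem_degZero, map_sub, hEbdeg, hEwbdeg, sub_self]
  have hmk : ∀ (y : Pic0 L F) (E : Divisor L F) (m : ℕ) (w : 𝔇.O), IsEffRep P₀ y E →
      Divisor.degree E = m → (w : F) ≠ 0 →
      ∀ h : E - (divOf (w : F) + Finsupp.single P₀ (m : ℤ)) ∈ Divisor.degZero (K := L) (F := F),
      Pic0.mk (⟨_, h⟩ : Divisor.degZero (K := L) (F := F)) = y := by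
    rintro y E m w ⟨-, D, hD, hDE⟩ hdeg hw0 h
    rw [← hD, mk_eq_mk_iff, isPrincipal_iff_divOf]
    refine ⟨(w : F)⁻¹, inv_ne_zero hw0, ?_⟩
    rw [TorsInj.divOf_inv, hDE, hdeg]
    simp only
    abel
  have hpair := coe_weil (n := n) (x := x) (y := b) ⟨Ex - Ewx, hxm⟩ ⟨Eb - Ewb, hbm⟩
    (hmk x Ex m wx hEx hExdeg hwxF0 hxm) (hmk b Eb d wb hEbrep hEbdeg hwbF0 hbm) hfx0 hfb0
    hfxdiv hfbdiv (by
      intro P
      by_cases hPZ : r P ∈ Z
      · left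
        simp only [Finsupp.sub_apply]
        rw [hExQ P hPZ, hEwxQ P hPZ, sub_self]
      · right
        simp only [Finsupp.sub_apply]
        have h1 : Eb P = 0 := by
          by_contra h
          exact hPZ (hZEb P h)
        have h2 : Ewb P = 0 := by
          by_contra h
          exact hPZ (hZEwb P h)
        rw [h1, h2, sub_self])
  have hvx : ∀ P, r P ∈ Z → val P (1 + ∑ i, (μ i : L) • ((v i : 𝔇.O) : F)) ≠ 0 := by
    intro P hP
    refine Fermat.Agent.WeilPairing.val_ne_zero hfx0 ?_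
    rw [← divOf_apply, hfxdiv, Finsupp.smul_apply, Finsupp.sub_apply, hExQ P hP, hEwxQ P hP,
      sub_self, smul_zero]
  have hvb : ∀ P, r P ∉ Z → val P (1 + ∑ i, (μ' i : L) • ((v' i : 𝔇.O) : F)) ≠ 0 := by
    intro P hP
    refine Fermat.Agent.WeilPairing.val_ne_zero hfb0 ?_
    have h1 : Eb P = 0 := by
      by_contra h
      exact hP (hZEb P h)
    have h2 : Ewb P = 0 := by
      by_contra h
      exact hP (hZEwb P h)
    rw [← divOf_apply, hfbdiv, Finsupp.smul_apply, Finsupp.sub_apply, h1, h2, sub_self, smul_zero]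
  have h5 : (Fermat.Agent.WeilPairing.weil n x b : L) =
      ((e₁ : L) / (e₂ : L)) / ((e₃ : L) / (e₄ : L)) := by
    refine hpair.trans ?_
    rw [evalDiv_sub _ Eb Ewb (fun P hP => hvx P (hP.elim (hZEb P) (hZEwb P))),
      evalDiv_sub _ Ex Ewx (fun P hP => hvb P (hP.elim (hZEx P) (hZEwx P))), hE1, hE2, hE3, hE4]
  obtain ⟨t, ht⟩ := (hu2.mul hu3).exists_right_inv
  refine ⟨(e₁ * e₄ - e₂ * e₃) * t, ?_, ?_⟩
  · have h6 : e₁ * e₄ - e₂ * e₃ = (e₁ - e₂) * e₄ - e₂ * (e₃ - e₄) := by ring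
    rw [h6]
    exact Ideal.mul_mem_right _ _ (Ideal.sub_mem _ (Ideal.mul_mem_right _ _ h12)
      (Ideal.mul_mem_left _ _ h34))
  · have h7 : (e₂ : L) * (e₃ : L) * (t : L) = 1 := congrArg Subtype.val ht
    have h2' : (e₂ : L) ≠ 0 := by
      intro h0
      rw [h0, zero_mul, zero_mul] at h7
      exact zero_ne_one h7
    have h3' : (e₃ : L) ≠ 0 := by
      intro h0
      rw [h0, mul_zero, zero_mul] at h7
      exact zero_ne_one h7
    have ht' : (t : L) = ((e₂ : L) * (e₃ : L))⁻¹ :=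
      eq_inv_of_mul_eq_one_right h7
    rw [h5]
    push_cast
    rw [ht']
    field_simp
    ring

end Fermat.Agent.OrdO
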