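import Fermat.Agent.OrdO.PnTor
import Fermat.Agent.FlatJ.JFlat
import Fermat.Agent.HeckeRed.Package

/-!
# The Eichler-Shimura relation at `p` modulo the augmentation subgroup
-/

set_option autoImplicit false
set_option linter.unusedSectionVars false

noncomputable section

open AlgebraicCurve Module ModularCurve

namespace Fermat.Agent.OrdO

open Fermat.Agent.FunField Fermat.Agent.FunField.PlaceLemmas Fermat.Agent.S27C
  Fermat.Agent.TorsInj Fermat.Agent.Deuring Fermat.Agent.FlatJ Fermat.Agent.FTau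
  Fermat.Agent.WeilPairing Fermat.Agent.Flat Fermat.Agent.HeckeRed

attribute [local instance] Fermat.Agent.WeilPairing.isCurveOver

local notation "Qb" => AlgebraicClosure ℚ
local notation "GQ" => AlgebraicClosure ℚ ≃ₐ[ℚ] AlgebraicClosure ℚ

variable (N : ℕ) [NeZero N] {p : ℕ} [hp : Fact p.Prime] {A : ValuationSubring Qb}

/-- The augmentation subgroup of `J₀(N)[n]`. -/
def AugJ (A : ValuationSubring Qb) (n : ℕ) : AddSubgroup (JZero N) :=
  AddSubgroup.closure {y | ∃ s ∈ A.inertiaSubgroupIn ℚ, ∃ v : JZero N, n • v = 0 ∧ s • v - v = y}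

theorem finite_tors (n : ℕ) (hn : 0 < n) : Finite (tors Qb (modularFunctionFieldBar N) n) := by
  have h1 := Fermat.Agent.BaseChangeFF.natCard_torsion_of_complex
    (fun E _ _ _ _ n hn => Fermat.Agent.S27C.natCard_torsion_complex n hn) Qb
    (modularFunctionFieldBar N) n hn
  have h2 : Nat.card {x : Pic0 Qb (modularFunctionFieldBar N) // (n : ℤ) • x = 0} ≠ 0 := by
    rw [h1]; exact (pow_pos hn _).ne'
  have h3 : Finite {x : Pic0 Qb (modularFunctionFieldBar N) // (n : ℤ) • x = 0} :=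
    Nat.finite_of_card_ne_zero h2
  refine Finite.of_equiv {x : Pic0 Qb (modularFunctionFieldBar N) // (n : ℤ) • x = 0}
    (Equiv.subtypeEquivRight fun x => ?_)
  rw [natCast_zsmul]
  exact Iff.rfl

section Aux

variable (κ : Type) [Field κ] [IsAlgClosed κ] [CharP κ p] [PerfectRing κ p] (π : A →+* κ)
  [IsLocalHom π] (hπ : Function.Surjective π) (hN : (N : κ) ≠ 0)
  (hin : ∀ σ ∈ A.inertiaSubgroupIn ℚ, ∃ σA : A →+* A, (∀ a : A, σ a = σA a) ∧
      ∀ a : A, RingHom.id κ (π a) = π (σA a))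
  (hfr : ∀ σ : AlgebraicClosure ℚ ≃ₐ[ℚ] AlgebraicClosure ℚ, A.IsFrobeniusAt σ p →
      ∃ σA : A →+* A, (∀ a : A, σ a = σA a) ∧ ∀ a : A, frobenius κ p (π a) = π (σA a))

include hπ hN in
theorem exists_fullRed : ∃ r, (dat A π hπ N hN).IsFullRed r :=
  exists_isFullRed_aux (dat A π hπ N hN)
    ((Fermat.Agent.Cusps.genusFF_eq_Qb A π hπ N hN).trans (genusFF_bar N).symm)

include hin in
theorem spHom_inertia {r : Place Qb (modularFunctionFieldBar N) →
    Place κ (modularFunctionFieldFullC κ N)} (hr : IsReduction (dat A π hπ N hN) r)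
    {s : GQ} (hs : s ∈ A.inertiaSubgroupIn ℚ) (x : JZero N) : spHom hr (s • x) = spHom hr x := by
  obtain ⟨σA, h1, h2⟩ := hin s hs
  have h3 := spHom_galois A π hπ N hN hr s 1 σA (RingHom.id _) h1 h2
      (coe_one_smul _) x
  rwa [one_smul] at h3

include hin in
theorem ker_sp_le (hA : A.LiesOverPrime p) (hp2 : p ≠ 2)
    {r : Place Qb (modularFunctionFieldBar N) →
      Place κ (modularFunctionFieldFullC κ N)} (hr : (dat A π hπ N hN).IsFullRed r)
    (hr' : IsReduction (dat A π hπ N hN) r) (n : ℕ) {x : JZero N} (hx : p ^ n • x = 0)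
    (hx0 : spHom hr' x = 0) : x ∈ AugJ N A (p ^ n) := by
  refine pnTor (𝔇 := dat A π hπ N hN) (P₀ := infN N)
    (ρ := arithmeticGalois (modularFunctionFieldFull N)) hA hp2
    (dat_A A π hπ N hN) hr (fun σ a => rfl) (smul_infN N)
    (fun m => exists_basis_data N A π m (dat A π hπ N hN) (fun x => mem_dat A π hπ N hN)
      (fun x => dat_res A π hπ N hN x)) (spHom hr') (fun y hy D hD => ?_)
    (fun s hs y => spHom_inertia N κ π hπ hN hin hr' hs y)
    (finite_tors N p hp.out.pos) n hx hx0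
  subst hD
  rw [spHom_mk, HeckeRed.mk_eq_zero_iff'] at hy
  exact hy

include hπ hN hin hfr in
theorem es_aug_aux (hA : A.LiesOverPrime p) (hp2 : p ≠ 2) (hpN : ¬ p ∣ N) {Φ : GQ}
    (hΦ : A.IsFrobeniusAt Φ p) (n : ℕ) {x : JZero N} (hx : p ^ n • x = 0) :
    Φ • Φ • x - heckeOperatorBar N ⟨p, hp.out⟩ (Φ • x) + p • x ∈ AugJ N A (p ^ n) := by
  obtain ⟨r, hr⟩ := exists_fullRed N κ π hπ hN
  have hr' : IsReduction (dat A π hπ N hN) r := ⟨hr.div, hr.rr⟩
  have hsm : ∀ (σ : GQ) (y : JZero N), p ^ n • y = 0 → p ^ n • (σ • y) = 0 := by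
    intro σ y hy
    have h := map_nsmul (DistribSMul.toAddMonoidHom (JZero N) σ) (p ^ n) y
    rw [hy, map_zero] at h
    exact h.symm
  refine ker_sp_le N κ π hπ hN hin hA hp2 hr hr' n ?_ ?_
  · have h1 : p ^ n • heckeOperatorBar N ⟨p, hp.out⟩ (Φ • x) = 0 := by
      rw [← map_nsmul, hsm _ _ hx, map_zero]
    rw [nsmul_add, nsmul_sub, hsm _ _ (hsm _ _ hx), h1, smul_comm, hx, smul_zero, sub_zero,
      zero_add]
  · obtain ⟨σA, h1, h2⟩ := hfr Φ hΦ
    let g₁ := frobAut (modularFunctionFieldFullC κ N) (full_stable N) p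
    have hg : ∀ y : JZero N, spHom hr' (Φ • y) = g₁ • spHom hr' y := fun y =>
      spHom_galois A π hπ N hN hr' Φ g₁ σA _ h1 h2 (coe_frobAut_smul _ (full_stable N) p) y
    have hes : ∀ y : JZero N, spHom hr' (heckeOperatorBar N ⟨p, hp.out⟩ y) =
        g₁ • spHom hr' y + p • (g₁⁻¹ • spHom hr' y) := fun y =>
      (congrArg (spHom hr') (heckeOperatorBar_apply N (⟨p, hp.out⟩ : Nat.Primes) y)).trans
        (spHom_hecke_eq A π hπ N hN hr' p hpN y)
    rw [map_add, map_sub, hes, hg, hg, map_nsmul, inv_smul_smul]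
    abel

end Aux

/-- **The Eichler-Shimura relation at `p` modulo the augmentation subgroup.** -/
theorem es_aug (hA : A.LiesOverPrime p) (hp2 : p ≠ 2) (hpN : ¬ p ∣ N) {Φ : GQ}
    (hΦ : A.IsFrobeniusAt Φ p) (n : ℕ) {x : JZero N} (hx : p ^ n • x = 0) :
    Φ • Φ • x - heckeOperatorBar N ⟨p, hp.out⟩ (Φ • x) + p • x ∈ AugJ N A (p ^ n) := by
  have i1 : IsAlgClosed (IsLocalRing.ResidueField A) := HeckeRed.isAlgClosed_residueField A
  have i2 : CharP (IsLocalRing.ResidueField A) p := charP_residueField hp.out hA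
  have i4 : PerfectRing (IsLocalRing.ResidueField A) p := inferInstance
  have i5 : IsLocalHom (IsLocalRing.residue A) := inferInstance
  exact es_aug_aux N (IsLocalRing.ResidueField A) (IsLocalRing.residue A)
    IsLocalRing.residue_surjective
    (fun h => hpN ((CharP.cast_eq_zero_iff (IsLocalRing.ResidueField A) p N).mp h))
    (fun σ hσ => exists_of_inertia hσ) (fun σ hσ => exists_of_frobenius hσ) hA hp2 hpN hΦ n hx

theorem augJ_eq (A : ValuationSubring Qb) (n : ℕ) : AugJ N A n =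
    AddSubgroup.closure {w | ∃ s ∈ A.inertiaSubgroupIn ℚ, ∃ y : JZero N, n • y = 0 ∧
      w = s • y - y} := by
  rw [AugJ]
  congr 1
  ext w
  exact ⟨fun ⟨s, hs, y, hy, h⟩ => ⟨s, hs, y, hy, h.symm⟩,
    fun ⟨s, hs, y, hy, h⟩ => ⟨s, hs, y, hy, h.symm⟩⟩

/-- **The Eichler-Shimura relation at `p` modulo the augmentation subgroup**, unfolded. -/
theorem esAug (hA : A.LiesOverPrime p) (hp2 : p ≠ 2) (hpN : ¬ p ∣ N) {Φ : GQ}
    (hΦ : A.IsFrobeniusAt Φ p) (n : ℕ) (x : JZero N) (hx : p ^ n • x = 0) :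
    Φ • Φ • x - heckeOperatorBar N ⟨p, hp.out⟩ (Φ • x) + p • x ∈
      AddSubgroup.closure {w | ∃ s ∈ A.inertiaSubgroupIn ℚ, ∃ y : JZero N, p ^ n • y = 0 ∧
        w = s • y - y} := by
  rw [← augJ_eq]
  exact es_aug N hA hp2 hpN hΦ n hx

end Fermat.Agent.OrdO
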