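import Fermat.Agent.OrdO.Poly
import Fermat.Agent.FlatJ.Integrality

/-!
# Normalised functions attached to torsion classes in the kernel of specialization
-/

set_option autoImplicit false
set_option linter.unusedSectionVars false

noncomputable section

open AlgebraicCurve Module

namespace Fermat.Agent.OrdO

open Fermat.Agent.FunField Fermat.Agent.FunField.PlaceLemmas Fermat.Agent.S27C
  Fermat.Agent.TorsInj Fermat.Agent.Deuring Fermat.Agent.FlatJ

attribute [local instance] Fermat.Agent.WeilPairing.isCurveOver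

variable {L k F F₁ : Type} [Field L] [Field k] [Field F] [Field F₁] [Algebra L F]
  [Algebra k F₁] [IsFF L F] [IsFF k F₁] [IsAlgClosed L] [IsAlgClosed k]
  {𝔇 : Data L k F F₁} {r : Place L F → Place k F₁} {P₀ : Place L F}
  {G : Type} (ρ : G → SemilinearAut L F)

/-- Bases of Riemann-Roch spaces which are orthonormal and invariant. -/
def HasBasis (𝔇 : Data L k F F₁) (P₀ : Place L F) (ρ : G → SemilinearAut L F) : Prop :=
  ∀ m : ℕ, ∃ u : Fin (finrank L (riemannRochSpace (Finsupp.single P₀ (m : ℤ)))) → 𝔇.O,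
      (∀ i, ((u i : 𝔇.O) : F) ∈ riemannRochSpace (Finsupp.single P₀ (m : ℤ))) ∧
      LinearIndependent k (fun i => 𝔇.res (u i)) ∧ ∀ (σ : G) i, ρ σ • ((u i : 𝔇.O) : F) = u i

/-- Residues lift to invariants. -/
def HasLift (𝔇 : Data L k F F₁) (ρ : G → SemilinearAut L F) : Prop :=
  ∀ c : k, ∃ a : 𝔇.A, 𝔇.π a = c ∧ ∀ g, SemilinearAut.baseAut (ρ g) (a : L) = a

variable {ρ}

theorem res_inv' {f : 𝔇.O} (hf : 𝔇.res f ≠ 0) : ∃ g : 𝔇.O, f * g = 1 ∧ 𝔇.res g ≠ 0 := by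
  obtain ⟨g, hg⟩ := (𝔇.isUnit_of_res_ne_zero hf).exists_right_inv
  refine ⟨g, hg, fun h0 => ?_⟩
  have := congrArg 𝔇.res hg
  rw [map_mul, h0, mul_zero, map_one] at this
  exact zero_ne_one this

theorem coe_sum_cst' {ι : Type} [Fintype ι] (u : ι → 𝔇.O) (b : ι → 𝔇.A) :
    ((∑ i, 𝔇.cst (b i) * u i : 𝔇.O) : F) = ∑ i, (b i : L) • ((u i : 𝔇.O) : F) := by
  push_cast
  refine Finset.sum_congr rfl fun i _ => ?_
  rw [Algebra.smul_def]
  rfl

theorem smul_sum {ι : Type} [Fintype ι] (u : ι → F) (g : SemilinearAut L F)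
    (hinv : ∀ i, g • u i = u i) (b : ι → L) :
    g • (∑ i, b i • u i) = ∑ i, SemilinearAut.baseAut g (b i) • u i := by
  rw [Finset.smul_sum]
  refine Finset.sum_congr rfl fun i _ => ?_
  rw [Algebra.smul_def, smul_mul', SemilinearAut.smul_algebraMap, hinv, Algebra.smul_def]

/-- Invariant lifts of functions. -/
theorem exists_lift_fun (hbas : HasBasis 𝔇 P₀ ρ) (hlift : HasLift 𝔇 ρ) {m : ℕ}
    (hm : 𝔇.red (riemannRochSpace (Finsupp.single P₀ (m : ℤ))) =
      riemannRochSpace (Finsupp.single (r P₀) (m : ℤ))) {gb : F₁}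
    (hgb : gb ∈ riemannRochSpace (Finsupp.single (r P₀) (m : ℤ))) :
    ∃ w : 𝔇.O, (w : F) ∈ riemannRochSpace (Finsupp.single P₀ (m : ℤ)) ∧ 𝔇.res w = gb ∧
      ∀ g, ρ g • (w : F) = w := by
  rw [← hm] at hgb
  obtain ⟨f, hf, rfl⟩ := hgb
  obtain ⟨u, hu, hli, hinv⟩ := hbas m
  obtain ⟨c, hc⟩ := exists_coeff_int 𝔇 u hu hli f hf
  choose a ha1 ha2 using fun i => hlift (𝔇.π (c i))
  refine ⟨∑ i, 𝔇.cst (a i) * u i, ?_, ?_, fun g => ?_⟩
  · rw [coe_sum_cst']
    exact Submodule.sum_mem _ fun i _ => Submodule.smul_mem _ _ (hu i)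
  · rw [hc, map_sum, map_sum]
    refine Finset.sum_congr rfl fun i _ => ?_
    rw [map_mul, map_mul, 𝔇.res_cst, 𝔇.res_cst, ha1]
  · rw [coe_sum_cst', smul_sum _ _ (hinv g)]
    exact Finset.sum_congr rfl fun i _ => by rw [ha2]

/-- **Normalised functions.** -/
theorem exists_norm_fun (hr : 𝔇.IsRed r) (hP₀ : ∀ g, ρ g • P₀ = P₀) (hbas : HasBasis 𝔇 P₀ ρ)
    (hlift : HasLift 𝔇 ρ) {n : ℕ} {y : Pic0 L F} (hy : n • y = 0) {E : Divisor L F} {m : ℕ}
    (hE : IsEffRep P₀ y E) (hdeg : Divisor.degree E = m) {w : 𝔇.O}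
    (hw : (w : F) ∈ riemannRochSpace (Finsupp.single P₀ (m : ℤ))) (hw0 : 𝔇.res w ≠ 0)
    (hwinv : ∀ g, ρ g • (w : F) = w)
    (hwE : Finsupp.mapDomain r E = divOf (𝔇.res w) + Finsupp.single (r P₀) (m : ℤ)) :
    ∃ (ι : Type) (_ : Fintype ι) (v : ι → 𝔇.O) (μ : ι → 𝔇.A), (∀ i, 𝔇.π (μ i) = 0) ∧
      (1 + ∑ i, (μ i : L) • ((v i : 𝔇.O) : F)) ≠ 0 ∧
      (divOf (1 + ∑ i, (μ i : L) • ((v i : 𝔇.O) : F)) : Divisor L F) =
        n • (E - (divOf (w : F) + Finsupp.single P₀ (m : ℤ))) ∧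
      (∀ Q, (divOf (w : F) + Finsupp.single P₀ (m : ℤ) : Divisor L F) Q = 0 → ∀ i,
        ((v i : 𝔇.O) : F) ∈ Q.toValuationSubring) ∧
      (∀ g i, ρ g • ((v i : 𝔇.O) : F) = v i) ∧
      ((∀ g, ρ g • E = E) → ∀ g i, SemilinearAut.baseAut (ρ g) (μ i : L) = μ i) := by
  classical
  have hwF0 : (w : F) ≠ 0 := 𝔇.coe_ne_zero_of_res_ne_zero hw0
  obtain ⟨f₀, hf₀0, hf₀⟩ := hE.exists_torsion hy
  rw [hdeg] at hf₀
  have hsingle : (n • (Finsupp.single P₀ (m : ℤ)) : Divisor L F) =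
      Finsupp.single P₀ ((n * m : ℕ) : ℤ) := by
    rw [Finsupp.smul_single, nsmul_eq_mul]
    push_cast
    rfl
  have hf₀mem : f₀ ∈ riemannRochSpace (Finsupp.single P₀ ((n * m : ℕ) : ℤ)) := by
    rw [mem_rr_iff_divOf hf₀0, ← hf₀, ← hsingle, ← nsmul_add, add_sub_cancel]
    exact nsmul_nonneg hE.1 n
  obtain ⟨u, hu, hli, hinv⟩ := hbas (n * m)
  have hliL := 𝔇.linearIndependent_of_res u hli
  obtain ⟨c, hc⟩ := exists_coeff 𝔇 u hu hli hf₀mem
  have hc0 : c ≠ 0 := by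
    rintro rfl
    apply hf₀0
    rw [hc]
    simp
  obtain ⟨j, hcj, hcA⟩ := 𝔇.exists_scale c hc0
  let a : Fin _ → 𝔇.A := fun i => ⟨c i / c j, hcA i⟩
  have haj : a j = 1 := Subtype.ext (div_self hcj)
  let α : 𝔇.O := ∑ i, 𝔇.cst (a i) * u i
  have hαF : (α : F) = (c j)⁻¹ • f₀ := by
    rw [hc, Finset.smul_sum]
    refine (coe_sum_cst' u a).trans (Finset.sum_congr rfl fun i _ => ?_)
    change (c i / c j : L) • _ = _
    rw [smul_smul, mul_comm, div_eq_mul_inv]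
  have hα0 : 𝔇.res α ≠ 0 := by
    intro h0
    have h1 : ∑ i, 𝔇.π (a i) • 𝔇.res (u i) = 0 := by
      rw [← h0, map_sum]
      refine Finset.sum_congr rfl fun i _ => ?_
      rw [map_mul, 𝔇.res_cst, Algebra.smul_def]
    have h2 := Fintype.linearIndependent_iff.1 hli _ h1 j
    rw [haj, map_one] at h2
    exact one_ne_zero h2
  have hαdiv : (divOf (α : F) : Divisor L F) = n • (E - Finsupp.single P₀ (m : ℤ)) := by
    rw [hf₀, hαF]
    ext v
    rw [divOf_apply, divOf_apply]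
    exact ord_smul_of_ne_zero v (inv_ne_zero hcj) f₀
  -- comparison of the reductions
  have hwn0 : (𝔇.res w) ^ n ≠ 0 := pow_ne_zero _ hw0
  obtain ⟨cb, hcb0, hcb⟩ := eq_smul_of_divOf_eq hα0 hwn0 (by
    rw [← mapDomain_divOf hr hα0, hαdiv, TorsInj.mapDomain_nsmul, Finsupp.mapDomain_sub,
      Finsupp.mapDomain_single, hwE, add_sub_cancel_right, divOf_pow])
  obtain ⟨c', hc', hc'fix⟩ := hlift cb
  let β : 𝔇.O := 𝔇.cst c' * α
  have hβres : 𝔇.res β = 𝔇.res (w ^ n) := by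
    rw [map_mul, 𝔇.res_cst, hc', map_pow, hcb, Algebra.smul_def]
  have hβ0 : 𝔇.res β ≠ 0 := by rw [hβres, map_pow]; exact hwn0
  have hβF0 : (β : F) ≠ 0 := 𝔇.coe_ne_zero_of_res_ne_zero hβ0
  have hc'0 : (c' : L) ≠ 0 := by
    intro h0
    apply hβF0
    change algebraMap L F (c' : L) * (α : F) = 0
    rw [h0, map_zero, zero_mul]
  have hwnmem : ((w ^ n : 𝔇.O) : F) ∈ riemannRochSpace (Finsupp.single P₀ ((n * m : ℕ) : ℤ)) := by
    rw [← hsingle]
    exact Deuring.pow_mem_rr hw n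
  obtain ⟨d, hd⟩ := exists_coeff_int 𝔇 u hu hli (w ^ n) hwnmem
  let μ : Fin _ → 𝔇.A := fun i => c' * a i - d i
  have hβsum : β - w ^ n = ∑ i, 𝔇.cst (μ i) * u i := by
    rw [hd]
    simp only [β, α]
    rw [Finset.mul_sum, ← Finset.sum_sub_distrib]
    refine Finset.sum_congr rfl fun i _ => ?_
    have h1 : 𝔇.cst (μ i) = 𝔇.cst c' * 𝔇.cst (a i) - 𝔇.cst (d i) := Subtype.ext (by
      change algebraMap L F ((c' : L) * (a i : L) - (d i : L)) =
        algebraMap L F c' * algebraMap L F (a i) - algebraMap L F (d i)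
      rw [map_sub, map_mul])
    rw [h1]
    ring
  have hμ : ∀ i, 𝔇.π (μ i) = 0 := by
    have h1 : ∑ i, 𝔇.π (μ i) • 𝔇.res (u i) = 0 := by
      have h2 : 𝔇.res (β - w ^ n) = 0 := by rw [map_sub, hβres, sub_self]
      rw [hβsum, map_sum] at h2
      rw [← h2]
      refine Finset.sum_congr rfl fun i _ => ?_
      rw [map_mul, 𝔇.res_cst, Algebra.smul_def]
    exact Fintype.linearIndependent_iff.1 hli _ h1
  obtain ⟨w', hww', hw'0⟩ := res_inv' hw0
  have hw'F : ((w' : 𝔇.O) : F) = (w : F)⁻¹ := by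
    have h1 : (w : F) * ((w' : 𝔇.O) : F) = 1 := congrArg Subtype.val hww'
    exact (inv_eq_of_mul_eq_one_right h1).symm
  let v : Fin _ → 𝔇.O := fun i => u i * w' ^ n
  have hvF : ∀ i, ((v i : 𝔇.O) : F) = (u i : F) * ((w : F)⁻¹) ^ n := fun i => by
    simp only [v]
    push_cast
    rw [hw'F]
  have hfF : 1 + ∑ i, (μ i : L) • ((v i : 𝔇.O) : F) = (β : F) * ((w : F)⁻¹) ^ n := by
    have h1 : ∑ i, (μ i : L) • ((v i : 𝔇.O) : F) = ((β : F) - (w : F) ^ n) * ((w : F)⁻¹) ^ n := by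
      have h2 := congrArg Subtype.val hβsum
      rw [coe_sum_cst'] at h2
      have h3 : (β : F) - (w : F) ^ n = ∑ i, (μ i : L) • ((u i : 𝔇.O) : F) := h2
      rw [h3, Finset.sum_mul]
      exact Finset.sum_congr rfl fun i _ => by rw [hvF, smul_mul_assoc]
    rw [h1, sub_mul, ← mul_pow, mul_inv_cancel₀ hwF0, one_pow]
    ring
  have hf0 : 1 + ∑ i, (μ i : L) • ((v i : 𝔇.O) : F) ≠ 0 := by
    rw [hfF]
    exact mul_ne_zero hβF0 (pow_ne_zero _ (inv_ne_zero hwF0))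
  have hβdiv : (divOf (β : F) : Divisor L F) = n • (E - Finsupp.single P₀ (m : ℤ)) := by
    rw [← hαdiv]
    have h1 : (β : F) = (c' : L) • (α : F) := by
      rw [Algebra.smul_def]; rfl
    rw [h1]
    ext v
    rw [divOf_apply, divOf_apply]
    exact ord_smul_of_ne_zero v hc'0 _
  refine ⟨Fin _, inferInstance, v, μ, hμ, hf0, ?_, ?_, ?_, ?_⟩
  · rw [hfF, TorsInj.divOf_mul hβF0 (pow_ne_zero _ (inv_ne_zero hwF0)), TorsInj.divOf_pow,
      TorsInj.divOf_inv, hβdiv, ← nsmul_add]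
    congr 1
    abel
  · intro Q hQ i
    by_cases hu0 : ((u i : 𝔇.O) : F) = 0
    · rw [hvF, hu0, zero_mul]
      exact zero_mem _
    refine S27C.mem_of_ord_nonneg ?_
    have h1 := (Fermat.Agent.Deuring.mem_rr_of_ne hu0).1 (hu i) Q
    rw [Finsupp.add_apply, divOf_apply] at hQ
    rw [hvF, Q.ord_mul hu0 (pow_ne_zero _ (inv_ne_zero hwF0)), PlaceLemmas.ord_pow, Q.ord_inv]
    have h3 : Q.ord (w : F) = -(Finsupp.single P₀ (m : ℤ) : Divisor L F) Q := by linarith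
    rw [h3]
    rw [← hsingle, Finsupp.smul_apply, nsmul_eq_mul] at h1
    linarith
  · intro g i
    rw [hvF, smul_mul', smul_pow', smul_inv'', hinv, hwinv]
  · intro hEg g
    have hrep : ∀ b b' : Fin _ → L, ∑ i, b i • ((u i : 𝔇.O) : F) = ∑ i, b' i • ((u i : 𝔇.O) : F) →
        b = b' := by
      intro b b' h
      have h1 := Fintype.linearIndependent_iff.1 hliL (fun i => b i - b' i) (by
        simp only [sub_smul, Finset.sum_sub_distrib]
        rw [h, sub_self])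
      funext i
      exact sub_eq_zero.1 (h1 i)
    have hdfix : ∀ i, SemilinearAut.baseAut (ρ g) (d i : L) = d i := by
      have h1 : ρ g • ((w ^ n : 𝔇.O) : F) = ((w ^ n : 𝔇.O) : F) := by
        have h2 : ((w ^ n : 𝔇.O) : F) = (w : F) ^ n := rfl
        rw [h2, smul_pow', hwinv]
      rw [hd, coe_sum_cst', smul_sum _ _ (hinv g)] at h1
      exact fun i => congrFun (hrep _ _ h1) i
    have hafix : ∀ i, SemilinearAut.baseAut (ρ g) (a i : L) = a i := by
      have hαF0 : (α : F) ≠ 0 := 𝔇.coe_ne_zero_of_res_ne_zero hα0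
      obtain ⟨γ, hγ0, hγ⟩ := eq_smul_of_divOf_eq hαF0 ((smul_ne_zero_iff_ne (ρ g)).mpr hαF0) (by
        rw [divOf_smul', hαdiv]
        have h1 := map_nsmul (DistribSMul.toAddMonoidHom (Divisor L F) (ρ g)) n
          (E - Finsupp.single P₀ (m : ℤ))
        have h2 : ρ g • (E - Finsupp.single P₀ (m : ℤ)) = E - Finsupp.single P₀ (m : ℤ) := by
          rw [smul_sub, hEg, SemilinearAut.smul_single, hP₀]
        rw [DistribSMul.toAddMonoidHom_apply, DistribSMul.toAddMonoidHom_apply, h2] at h1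
        exact h1.symm)
      have h1 : (α : F) = ∑ i, (a i : L) • ((u i : 𝔇.O) : F) := coe_sum_cst' u a
      rw [h1, smul_sum _ _ (hinv g), Finset.smul_sum] at hγ
      simp only [smul_smul] at hγ
      have h2 := hrep _ _ hγ
      have h3 := congrFun h2 j
      simp only [haj, OneMemClass.coe_one, map_one, mul_one] at h3
      intro i
      have h4 := congrFun h2 i
      simp only [← h3, one_mul] at h4
      exact h4
    intro i
    have h1 : ((μ i : 𝔇.A) : L) = (c' : L) * (a i : L) - d i := rfl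
    rw [h1, map_sub, map_mul, hc'fix, hafix, hdfix]

end Fermat.Agent.OrdO
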