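import Mathlib.GroupTheory.FiniteAbelian.Duality
import Mathlib.RingTheory.RootsOfUnity.AlgebraicallyClosed

/-!
# Orthogonal complements for perfect pairings with values in roots of unity
-/

set_option autoImplicit false

namespace Fermat.Agent.OrdO

/-- Elements outside a subgroup are detected by the orthogonal complement. -/
theorem exists_perp {V R : Type} [AddCommGroup V] [Finite V] [Field R] [IsAlgClosed R] [CharZero R]
    (e : V → V → Rˣ) (hl : ∀ x x' y, e (x + x') y = e x y * e x' y)
    (hr : ∀ x y y', e x (y + y') = e x y * e x y') (hnd : ∀ y, (∀ x, e x y = 1) → y = 0)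
    (C : AddSubgroup V) {x : V} (hx : x ∉ C) : ∃ b, (∀ c ∈ C, e c b = 1) ∧ e x b ≠ 1 := by
  classical
  have hl0 : ∀ y, e 0 y = 1 := fun y => by
    have := hl 0 0 y
    rw [add_zero] at this
    exact (mul_eq_left.mp this.symm)
  let Φ : V → (Multiplicative V →* Rˣ) := fun b =>
    { toFun := fun v => e v.toAdd b
      map_one' := hl0 b
      map_mul' := fun v w => hl _ _ b }
  have hr0 : ∀ y, e y 0 = 1 := fun y => by
    have := hr y 0 0
    rw [add_zero] at this
    exact (mul_eq_left.mp this.symm)
  have hinj : Function.Injective Φ := by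
    intro b b' h
    rw [← sub_eq_zero]
    apply hnd
    intro v
    have h1 : e v b = e v b' := congrArg (fun f : Multiplicative V →* Rˣ => f (Multiplicative.ofAdd v)) h
    have h2 := hr v (b - b') b'
    rw [sub_add_cancel, h1] at h2
    exact mul_eq_right.mp h2.symm
  have hex : (Monoid.exponent (Multiplicative V) : ℕ) ≠ 0 := Monoid.exponent_ne_zero_of_finite
  have hne : NeZero (Monoid.exponent (Multiplicative V)) := ⟨hex⟩
  have hcard := CommGroup.card_monoidHom_of_hasEnoughRootsOfUnity (Multiplicative V) R
  have hfin : Finite (Multiplicative V →* Rˣ) := Nat.finite_of_card_ne_zero (by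
    rw [hcard]
    exact Nat.card_pos.ne')
  have hsurj : Function.Surjective Φ := by
    have hbij := (Function.Injective.bijective_of_nat_card_le hinj (by
      rw [hcard]
      exact le_of_eq rfl))
    exact hbij.2
  -- a character of the quotient
  have hfinq : Finite (Multiplicative (V ⧸ C)) := inferInstanceAs (Finite (V ⧸ C))
  have hneq : NeZero (Monoid.exponent (Multiplicative (V ⧸ C))) :=
    ⟨Monoid.exponent_ne_zero_of_finite⟩
  obtain ⟨χ, hχ⟩ := CommGroup.exists_apply_ne_one_of_hasEnoughRootsOfUnity
    (Multiplicative (V ⧸ C)) R (a := Multiplicative.ofAdd (QuotientAddGroup.mk x : V ⧸ C)) (by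
      intro h
      apply hx
      exact (QuotientAddGroup.eq_zero_iff x).mp h)
  obtain ⟨b, hb⟩ := hsurj (χ.comp (AddMonoidHom.toMultiplicative (QuotientAddGroup.mk' C)))
  have hb' : ∀ v, e v b = χ (Multiplicative.ofAdd (QuotientAddGroup.mk v : V ⧸ C)) := fun v =>
    congrArg (fun f : Multiplicative V →* Rˣ => f (Multiplicative.ofAdd v)) hb
  refine ⟨b, fun c hc => ?_, ?_⟩
  · rw [hb', (QuotientAddGroup.eq_zero_iff c).mpr hc]
    exact map_one χ
  · rw [hb']
    exact hχ

end Fermat.Agent.OrdO
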