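import Fermat.Agent.FTau.QNorm
import Fermat.Agent.FTau.Fibre

/-!
# Ramification of the field of `p`-th roots of unity over the inertia field
-/

set_option autoImplicit false
set_option linter.unusedSectionVars false

noncomputable section

namespace Fermat.Agent.OrdO

open Fermat.Agent.Flat Fermat.Agent.FTau

local notation "Qb" => AlgebraicClosure ℚ
local notation "GQ" => AlgebraicClosure ℚ ≃ₐ[ℚ] AlgebraicClosure ℚ

variable {p : ℕ} [hp : Fact p.Prime] {A : ValuationSubring Qb}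

/-- elements fixed by the stabilizer of `ζ_p` in the inertia group -/
theorem norm_le_rho (hA : A.LiesOverPrime p) (hp2 : p ≠ 2) {j : Qb →+* PadicAlgCl p}
    (hj : IsEmb A j) {ζ : Qb} (hζ : IsPrimitiveRoot ζ p) {a : Qb} (ha : ‖j a‖ < 1)
    (hfix : ∀ s ∈ A.inertiaSubgroupIn ℚ, s ζ = ζ → s a = a) : ‖j a‖ ≤ rho p := by
  classical
  have S := setting_QN hj hp2
  have hρ0 := rho_pos p (QN j) (A.inertiaSubgroupIn ℚ)
  have hρ1 := rho_lt_one p (QN j) (A.inertiaSubgroupIn ℚ)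
  rcases eq_or_ne a 0 with rfl | ha0
  · rw [map_zero, norm_zero]; exact hρ0.le
  have hs : ∀ ξ : Qb, ∃ s ∈ A.inertiaSubgroupIn ℚ, ξ ∈ primitiveRoots p Qb → s ζ = ξ := by
    intro ξ
    by_cases hξ : ξ ∈ primitiveRoots p Qb
    · rw [mem_primitiveRoots hp.out.pos] at hξ
      obtain ⟨s, hs, h⟩ := ORD.exists_inertia_root hA 1 (ζ := ζ) (ξ := ξ)
        (by rwa [pow_one]) (by rwa [pow_one])
      exact ⟨s, hs, fun _ => h⟩
    · exact ⟨1, one_mem _, fun h => absurd h hξ⟩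
  choose s hsI hsζ using hs
  set N : Qb := ∏ ξ ∈ primitiveRoots p Qb, s ξ a with hN
  have hperm : ∀ t : GQ, ∀ ξ ∈ primitiveRoots p Qb, t ξ ∈ primitiveRoots p Qb := by
    intro t ξ hξ
    rw [mem_primitiveRoots hp.out.pos] at hξ ⊢
    exact hξ.map_of_injective t.injective
  have hNfix : ∀ t ∈ A.inertiaSubgroupIn ℚ, t N = N := by
    intro t ht
    have h1 : ∀ ξ ∈ primitiveRoots p Qb, t (s ξ a) = s (t ξ) a := by
      intro ξ hξ
      have h2 := hfix ((s (t ξ))⁻¹ * t * s ξ)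
        (mul_mem (mul_mem (inv_mem (hsI _)) ht) (hsI _)) (by
          rw [AlgEquiv.mul_apply, AlgEquiv.mul_apply, hsζ ξ hξ]
          exact (congrArg ((s (t ξ))⁻¹ : GQ) (hsζ (t ξ) (hperm t ξ hξ)).symm).trans
            ((s (t ξ)).symm_apply_apply _))
      rw [AlgEquiv.mul_apply, AlgEquiv.mul_apply] at h2
      have h3 := congrArg (s (t ξ)) h2
      have h4 : s (t ξ) ((s (t ξ))⁻¹ (t (s ξ a))) = t (s ξ a) := (s (t ξ)).apply_symm_apply _
      rw [h4] at h3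
      exact h3
    rw [hN, map_prod, Finset.prod_congr rfl h1]
    refine Finset.prod_bij (fun ξ _ => t ξ) (hperm t) (fun ξ _ ξ' _ h => t.injective h)
      (fun ξ hξ => ⟨t⁻¹ ξ, hperm t⁻¹ ξ hξ, t.apply_symm_apply ξ⟩) (fun ξ _ => rfl)
  have hN0 : N ≠ 0 := Finset.prod_ne_zero_iff.mpr fun ξ _ => (map_ne_zero _).mpr ha0
  obtain ⟨m, hm⟩ := S.norm_fixed (N : Qb) hN0 fun σ => hNfix σ σ.2
  have hnorm : ‖j N‖ = ‖j a‖ ^ (p - 1) := by
    rw [hN, map_prod, norm_prod, Finset.prod_congr rfl fun ξ _ =>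
      hj.norm_fix ((ORD.mem_inertia_iff A (s ξ)).mp (hsI ξ)).1 a, Finset.prod_const,
      hζ.card_primitiveRoots, Nat.totient_prime hp.out]
  have hm' : ‖j N‖ = (p : ℝ) ^ m := hm
  have h1 : ‖j a‖ ^ (p - 1) = (rho p ^ (-m)) ^ (p - 1) := by
    rw [← hnorm, hm', ← zpow_natCast, ← zpow_mul, mul_comm, zpow_mul, zpow_natCast,
      rho_pow p (QN j) (A.inertiaSubgroupIn ℚ), inv_zpow, zpow_neg, inv_inv]
  have hp1 : p - 1 ≠ 0 := by
    have := hp.out.two_le
    omega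
  have h2 : ‖j a‖ = rho p ^ (-m) :=
    (pow_left_inj₀ (norm_nonneg _) (zpow_nonneg hρ0.le _) hp1).mp h1
  have h3 : 0 < -m := by
    by_contra hcon
    push Not at hcon
    have h4 := one_le_zpow_of_nonpos₀ hρ0 hρ1.le hcon
    rw [← h2] at h4
    exact absurd ha (not_lt.mpr h4)
  rw [h2]
  calc rho p ^ (-m) ≤ rho p ^ (1 : ℤ) := zpow_le_zpow_right_of_le_one₀ hρ0 hρ1.le (by omega)
    _ = rho p := zpow_one _

end Fermat.Agent.OrdO
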