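import Fermat.Agent.OrdO.Core
import Fermat.Agent.OrdO.Ram
import Fermat.Agent.OrdO.Perp
import Fermat.Agent.WeilPairing.Nondeg
import Fermat.Agent.BaseChangeFF.Divisible

/-!
# The `p`-torsion in the kernel of specialization
-/

set_option autoImplicit false
set_option linter.unusedSectionVars false

noncomputable section

open AlgebraicCurve Module

namespace Fermat.Agent.OrdO

open Fermat.Agent.FunField Fermat.Agent.FunField.PlaceLemmas Fermat.Agent.S27C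
  Fermat.Agent.TorsInj Fermat.Agent.Deuring Fermat.Agent.FlatJ Fermat.Agent.FTau
  Fermat.Agent.WeilPairing Fermat.Agent.Flat

attribute [local instance] Fermat.Agent.WeilPairing.isCurveOver

local notation "Qb" => AlgebraicClosure ℚ
local notation "GQ" => AlgebraicClosure ℚ ≃ₐ[ℚ] AlgebraicClosure ℚ

section Nondeg

variable {L F : Type} [Field L] [IsAlgClosed L] [CharZero L] [Field F] [Algebra L F] [IsFF L F]

/-- right nondegeneracy -/
theorem weil_ndr {n : ℕ} (hn : 0 < n) {y : Pic0 L F} (hy : n • y = 0)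
    (h : ∀ x : Pic0 L F, n • x = 0 → weil n x y = 1) : y = 0 := by
  refine weil_nondeg (n := n) (Nat.cast_ne_zero.mpr hn.ne')
    (fun F' _ _ _ c => BaseChangeFF.pic0_divisible L F' n hn c) hy fun x hx => ?_
  rw [weil_symm hx hy, h x hx, inv_one]

/-- the torsion subgroup -/
def tors (L F : Type) [Field L] [Field F] [Algebra L F] [IsFF L F] (n : ℕ) :
    AddSubgroup (Pic0 L F) := (nsmulAddMonoidHom n).ker

theorem mem_tors {n : ℕ} {x : Pic0 L F} : x ∈ tors L F n ↔ n • x = 0 := Iff.rfl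

theorem smul_mem_tors (s : SemilinearAut L F) {n : ℕ} {x : Pic0 L F} (hx : n • x = 0) :
    n • (s • x) = 0 := by
  have h := map_nsmul (DistribSMul.toAddMonoidHom (Pic0 L F) s) n x
  rw [hx, map_zero] at h
  exact h.symm

end Nondeg

variable {p : ℕ} [hp : Fact p.Prime] {A : ValuationSubring Qb}
  {F k F₁ : Type} [Field F] [Algebra Qb F] [IsFF Qb F] [Field k] [Field F₁] [Algebra k F₁]
  [IsFF k F₁] [IsAlgClosed k] {𝔇 : Data Qb k F F₁} {r : Place Qb F → Place k F₁}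
  {P₀ : Place Qb F} {ρ : GQ →* SemilinearAut Qb F}

/-- The augmentation subgroup. -/
def AugP (A : ValuationSubring Qb) (ρ : GQ →* SemilinearAut Qb F) (n : ℕ) :
    AddSubgroup (Pic0 Qb F) :=
  AddSubgroup.closure {y | ∃ s ∈ A.inertiaSubgroupIn ℚ, ∃ v : Pic0 Qb F, n • v = 0 ∧
    ρ s • v - v = y}

theorem π_eq_zero_lt (h𝔇 : 𝔇.A = A) {j : Qb →+* PadicAlgCl p} (hj : IsEmb A j) (a : 𝔇.A) :
    𝔇.π a = 0 ↔ ‖j (a : Qb)‖ < 1 := by
  subst h𝔇
  rw [𝔇.π_ker, ← hj.lt_iff]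
  have h1 := ValuationSubring.valuation_lt_one_iff 𝔇.A a
  rw [← h1, IsLocalRing.mem_maximalIdeal, mem_nonunits_iff]

theorem hasLift_inertia (h𝔇 : 𝔇.A = A) (hp2 : p ≠ 2) {j : Qb →+* PadicAlgCl p} (hj : IsEmb A j)
    (hρ : ∀ σ a, SemilinearAut.baseAut (ρ σ) a = σ a) {G : Type} (g : G → GQ)
    (hg : ∀ s, g s ∈ A.inertiaSubgroupIn ℚ) : HasLift 𝔇 (fun s : G => ρ (g s)) := by
  have S := setting_QN hj hp2
  intro c
  obtain ⟨a, rfl⟩ := 𝔇.π_surj c
  obtain ⟨t, ht1, ht2'⟩ : ∃ t : Qb, (∀ s ∈ A.inertiaSubgroupIn ℚ, s t = t) ∧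
      ‖j ((a : Qb) - t)‖ < 1 := by
    obtain ⟨t, ht1, ht2⟩ := S.exists_fixed_near (a : Qb) (by
      have h1 : (a : Qb) ∈ A := by rw [← h𝔇]; exact a.2
      exact (hj _).mp h1)
    exact ⟨t, fun s hs => ht1 ⟨s, hs⟩, ht2⟩
  have htA : t ∈ 𝔇.A := by
    have h1 : t = (a : Qb) - ((a : Qb) - t) := by ring
    rw [h1]
    exact sub_mem a.2 (h𝔇.ge ((hj _).mpr ht2'.le))
  refine ⟨⟨t, htA⟩, ?_, fun s => ?_⟩
  · have h1 := (π_eq_zero_lt h𝔇 hj (a - ⟨t, htA⟩)).mpr (by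
      rw [AddSubgroupClass.coe_sub]
      exact ht2')
    rw [map_sub, sub_eq_zero] at h1
    exact h1.symm
  · rw [hρ]
    exact ht1 _ (hg s)

/-- Orthogonality of two classes with trivial specialization. -/
theorem weil_eq_one (hA : A.LiesOverPrime p) (hp2 : p ≠ 2) (h𝔇 : 𝔇.A = A) (hr : 𝔇.IsFullRed r)
    (hρ : ∀ σ a, SemilinearAut.baseAut (ρ σ) a = σ a) (hP₀ : ∀ σ, ρ σ • P₀ = P₀)
    (hbas : HasBasis 𝔇 P₀ ρ) {ζ : Qb} (hζ : IsPrimitiveRoot ζ p) {x b : Pic0 Qb F}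
    (hx : p • x = 0) (hb : p • b = 0)
    (hbG : ∀ s ∈ A.inertiaSubgroupIn ℚ, s ζ = ζ → ρ s • b = b) (hx0 : SpZ r x)
    (hb0 : SpZ r b) : weil p x b = 1 := by
  obtain ⟨j, hj⟩ := exists_emb hA
  have S := setting_QN hj hp2
  let G : Type := {s : GQ // s ∈ A.inertiaSubgroupIn ℚ ∧ s ζ = ζ}
  let ρG : G → SemilinearAut Qb F := fun s => ρ s.1
  have hbasG : HasBasis 𝔇 P₀ ρG := by
    intro m
    obtain ⟨u, h1, h2, h3⟩ := hbas m
    exact ⟨u, h1, h2, fun s i => h3 s.1 i⟩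
  have hliftG : HasLift 𝔇 ρG := hasLift_inertia h𝔇 hp2 hj hρ (fun s : G => s.1) fun s => s.2.1
  have hζ1 : ζ ≠ 1 := hζ.ne_one hp.out.one_lt
  have hnζ : ‖j (ζ - 1)‖ = rho p := norm_root_sub_one (p := p) (Ω := QN j)
    (I := A.inertiaSubgroupIn ℚ) hζ.pow_eq_one hζ1
  have hρ0 := rho_pos p (QN j) (A.inertiaSubgroupIn ℚ)
  have hρ1 := rho_lt_one p (QN j) (A.inertiaSubgroupIn ℚ)
  have hζA : ζ - 1 ∈ 𝔇.A := by
    rw [h𝔇]
    refine (hj _).mpr ?_
    rw [hnζ]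
    exact hρ1.le
  have hζ0 : ζ - 1 ≠ 0 := sub_ne_zero.mpr hζ1
  obtain ⟨w, hw, hwe⟩ := weil_sub_one_mem (G := G) hr (fun g => hP₀ g.1) hbasG hliftG
    (Ideal.span {(⟨ζ - 1, hζA⟩ : 𝔇.A)}) (by
      intro a ha hfix
      have h1 := (π_eq_zero_lt h𝔇 hj a).mp ha
      have h2 := norm_le_rho hA hp2 hj hζ h1 fun s hs hsζ => by
        have := hfix ⟨s, hs, hsζ⟩
        rwa [hρ] at this
      rw [Ideal.mem_span_singleton]
      have h3 : (a : Qb) / (ζ - 1) ∈ 𝔇.A := by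
        refine h𝔇.ge ((hj _).mpr ?_)
        rw [map_div₀, norm_div, hnζ]
        exact (div_le_one hρ0).mpr h2
      exact ⟨⟨_, h3⟩, Subtype.ext (by
        show (a : Qb) = (ζ - 1) * ((a : Qb) / (ζ - 1))
        rw [mul_div_cancel₀ _ hζ0])⟩) hx hb (fun g => hbG g.1 g.2.1 g.2.2) hx0 hb0
  have hwn : ‖j (w : Qb)‖ < rho p := by
    rw [Ideal.mem_span_singleton_mul] at hw
    obtain ⟨z, hz, rfl⟩ := hw
    have h1 := (π_eq_zero_lt h𝔇 hj z).mp hz
    have h2 : ‖j (((⟨ζ - 1, hζA⟩ : 𝔇.A) * z : 𝔇.A) : Qb)‖ = rho p * ‖j (z : Qb)‖ := by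
      rw [MulMemClass.coe_mul, map_mul, norm_mul, hnζ]
    rw [h2]
    calc rho p * ‖j (z : Qb)‖ < rho p * 1 := by gcongr
      _ = rho p := mul_one _
  by_contra hne
  have h1 : ((weil p x b : Qbˣ) : Qb) ≠ 1 := fun h => hne (Units.ext h)
  have h2 : ((weil p x b : Qbˣ) : Qb) ^ p = 1 := by
    rw [← Units.val_pow_eq_pow_val, weil_pow hx hb, Units.val_one]
  have h3 : ‖j (((weil p x b : Qbˣ) : Qb) - 1)‖ = rho p := norm_root_sub_one (p := p)
    (Ω := QN j) (I := A.inertiaSubgroupIn ℚ) h2 h1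
  rw [hwe, add_sub_cancel_left] at h3
  exact absurd h3 hwn.ne

/-- **The `p`-torsion with trivial specialization is generated by `s y - y`, `s` in inertia.** -/
theorem pTor (hA : A.LiesOverPrime p) (hp2 : p ≠ 2) (h𝔇 : 𝔇.A = A) (hr : 𝔇.IsFullRed r)
    (hρ : ∀ σ a, SemilinearAut.baseAut (ρ σ) a = σ a) (hP₀ : ∀ σ, ρ σ • P₀ = P₀)
    (hbas : HasBasis 𝔇 P₀ ρ) {X : Type} [AddCommGroup X] (sp : Pic0 Qb F →+ X)
    (hsp : ∀ y, sp y = 0 → SpZ r y)
    (hin : ∀ s ∈ A.inertiaSubgroupIn ℚ, ∀ y, sp (ρ s • y) = sp y)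
    (hfin : Finite (tors Qb F p)) {x : Pic0 Qb F} (hx : p • x = 0) (hx0 : sp x = 0) :
    x ∈ AugP A ρ p := by
  by_contra hcon
  obtain ⟨ζ, hζ⟩ := (HasEnoughRootsOfUnity.exists_primitiveRoot Qb p)
  have hwlift : ∀ a : tors Qb F p, p • (a : Pic0 Qb F) = 0 := fun a => a.2
  -- the pairing on the torsion
  obtain ⟨b, hb1, hb2⟩ := exists_perp (V := tors Qb F p) (R := Qb)
    (fun a b => weil p (a : Pic0 Qb F) (b : Pic0 Qb F))
    (fun a a' b => weil_add_left a.2 a'.2 b.2) (fun a b b' => weil_add_right a.2 b.2 b'.2)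
    (fun b h => Subtype.ext (weil_ndr hp.out.pos b.2 fun a ha => h ⟨a, ha⟩))
    ((AugP A ρ p).addSubgroupOf (tors Qb F p)) (x := ⟨x, hx⟩) (by
      rw [AddSubgroup.mem_addSubgroupOf]
      exact hcon)
  have hb : p • (b : Pic0 Qb F) = 0 := b.2
  -- orthogonality
  have horth : ∀ s ∈ A.inertiaSubgroupIn ℚ, ∀ v : Pic0 Qb F, p • v = 0 →
      weil p (ρ s • v) (b : Pic0 Qb F) = weil p v (b : Pic0 Qb F) := by
    intro s hs v hv
    have h1 : p • (ρ s • v - v) = 0 := by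
      rw [nsmul_sub, smul_mem_tors _ hv, hv, sub_zero]
    have h2 := hb1 ⟨ρ s • v - v, h1⟩ (by
      rw [AddSubgroup.mem_addSubgroupOf]
      exact AddSubgroup.subset_closure ⟨s, hs, v, hv, rfl⟩)
    have h3 := weil_add_left (n := p) h1 hv hb
    rw [sub_add_cancel] at h3
    rw [h3]
    exact (congrArg (· * _) h2).trans (one_mul _)
  -- the action of inertia on `b`
  have hact : ∀ s ∈ A.inertiaSubgroupIn ℚ, ∀ m : ℤ, s ζ = ζ ^ m → ρ s • (b : Pic0 Qb F) = m • b := by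
    intro s hs m hm
    have hmt : ∀ (m : ℤ), p • (m • (b : Pic0 Qb F)) = 0 := fun m => by
      rw [← natCast_zsmul, smul_smul, mul_comm, ← smul_smul, natCast_zsmul, hb, smul_zero]
    have hmw : ∀ (m : ℤ) (v : Pic0 Qb F), p • v = 0 →
        weil p v (m • (b : Pic0 Qb F)) = (weil p v (b : Pic0 Qb F)) ^ m := by
      intro m v hv
      let φ : tors Qb F p →+ Additive Qbˣ :=
        AddMonoidHom.mk' (fun y => Additive.ofMul (weil p v (y : Pic0 Qb F)))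
          (fun y y' => weil_add_right hv y.2 y'.2)
      have := map_zsmul φ m b
      exact this
    rw [← sub_eq_zero]
    refine weil_ndr hp.out.pos ?_ fun v hv => ?_
    · rw [nsmul_sub, smul_mem_tors _ hb, hmt, sub_zero]
    -- write `v = s v'`
    obtain ⟨v', hv', rfl⟩ : ∃ v', p • v' = 0 ∧ ρ s • v' = v :=
      ⟨(ρ s)⁻¹ • v, smul_mem_tors _ hv, smul_inv_smul _ _⟩
    have h1 := weil_add_right (n := p) (x := ρ s • v') (y := ρ s • (b : Pic0 Qb F) - m • b)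
      (y' := m • (b : Pic0 Qb F)) hv (by rw [nsmul_sub, smul_mem_tors _ hb, hmt, sub_zero])
      (hmt m)
    rw [sub_add_cancel] at h1
    have h2 : weil p (ρ s • v') (ρ s • (b : Pic0 Qb F)) = weil p (ρ s • v') (m • (b : Pic0 Qb F)) := by
      rw [hmw m _ hv, horth s hs v' hv', weil_smul (ρ s) hv' hb]
      obtain ⟨i, -, hi⟩ := hζ.eq_pow_of_pow_eq_one (ξ := ((weil p v' (b : Pic0 Qb F) : Qbˣ) : Qb))
        (by rw [← Units.val_pow_eq_pow_val, weil_pow hv' hb, Units.val_one])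
      apply Units.ext
      have h3 : (SemilinearAut.baseAut (ρ s)) ((weil p v' (b : Pic0 Qb F) : Qbˣ) : Qb) =
          ((weil p v' (b : Pic0 Qb F) : Qbˣ) : Qb) ^ m := by
        rw [hρ, ← hi, map_pow, hm, ← zpow_natCast, ← zpow_natCast, ← zpow_mul, ← zpow_mul, mul_comm]
      rw [Units.val_zpow_eq_zpow_val]
      exact h3
    rw [h2] at h1
    exact mul_eq_right.mp h1.symm
  -- `sp b = 0`
  have hspb : sp (b : Pic0 Qb F) = 0 := by
    obtain ⟨s, hs, h⟩ := ORD.exists_inertia_root hA 1 (ζ := ζ) (ξ := ζ⁻¹)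
        (by rwa [pow_one]) (by rw [pow_one]; exact hζ.inv)
    have h1 := hact s hs (-1) (by rw [h, zpow_neg_one])
    have h2 := hin s hs b
    rw [h1, neg_smul, one_smul, map_neg] at h2
    have h3 : (2 : ℕ) • sp (b : Pic0 Qb F) = 0 := by
      rw [two_nsmul]
      nth_rewrite 1 [← h2]
      exact neg_add_cancel _
    have h4 : p • sp (b : Pic0 Qb F) = 0 := by rw [← map_nsmul, hb, map_zero]
    have h5 : Nat.Coprime 2 p :=
      (Nat.coprime_primes Nat.prime_two hp.out).mpr (Ne.symm hp2)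
    have h6 : addOrderOf (sp (b : Pic0 Qb F)) ∣ Nat.gcd 2 p :=
      Nat.dvd_gcd (addOrderOf_dvd_of_nsmul_eq_zero h3) (addOrderOf_dvd_of_nsmul_eq_zero h4)
    rw [h5.gcd_eq_one, Nat.dvd_one, AddMonoid.addOrderOf_eq_one_iff] at h6
    exact h6
  refine hb2 (weil_eq_one hA hp2 h𝔇 hr hρ hP₀ hbas hζ hx hb (fun s hs hsζ => ?_)
    (hsp _ hx0) (hsp _ hspb))
  have := hact s hs 1 (by rw [hsζ, zpow_one])
  rwa [one_smul] at this

end Fermat.Agent.OrdO
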