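import Fermat.Agent.OrdO.PTor

/-!
# The `p ^ n`-torsion in the kernel of specialization
-/

set_option autoImplicit false
set_option linter.unusedSectionVars false

noncomputable section

open AlgebraicCurve Module

namespace Fermat.Agent.OrdO

open Fermat.Agent.FunField Fermat.Agent.FunField.PlaceLemmas Fermat.Agent.S27C
  Fermat.Agent.TorsInj Fermat.Agent.Deuring Fermat.Agent.FlatJ Fermat.Agent.FTau
  Fermat.Agent.WeilPairing Fermat.Agent.Flat

attribute [local instance] Fermat.Agent.WeilPairing.isCurveOver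

local notation "Qb" => AlgebraicClosure ℚ
local notation "GQ" => AlgebraicClosure ℚ ≃ₐ[ℚ] AlgebraicClosure ℚ

variable {p : ℕ} [hp : Fact p.Prime] {A : ValuationSubring Qb}
  {F k F₁ : Type} [Field F] [Algebra Qb F] [IsFF Qb F] [Field k] [Field F₁] [Algebra k F₁]
  [IsFF k F₁] [IsAlgClosed k] {𝔇 : Data Qb k F F₁} {r : Place Qb F → Place k F₁}
  {P₀ : Place Qb F} {ρ : GQ →* SemilinearAut Qb F}

theorem AugP_mono {m n : ℕ} (h : m ∣ n) : AugP A ρ m ≤ AugP A ρ n := by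
  obtain ⟨c, rfl⟩ := h
  refine AddSubgroup.closure_mono ?_
  rintro y ⟨s, hs, v, hv, rfl⟩
  exact ⟨s, hs, v, by rw [mul_comm, mul_smul, hv, smul_zero], rfl⟩

theorem AugP_tors {n : ℕ} {c : Pic0 Qb F} (hc : c ∈ AugP A ρ n) : n • c = 0 := by
  have h : AugP A ρ n ≤ tors Qb F n := by
    refine (AddSubgroup.closure_le _).mpr ?_
    rintro y ⟨s, -, v, hv, rfl⟩
    show n • (ρ s • v - v) = 0
    rw [nsmul_sub, smul_mem_tors _ hv, hv, sub_zero]
  exact h hc

theorem AugP_sp {X : Type} [AddCommGroup X] (sp : Pic0 Qb F →+ X)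
    (hin : ∀ s ∈ A.inertiaSubgroupIn ℚ, ∀ y, sp (ρ s • y) = sp y) {n : ℕ} {c : Pic0 Qb F}
    (hc : c ∈ AugP A ρ n) : sp c = 0 := by
  have h : AugP A ρ n ≤ sp.ker := by
    refine (AddSubgroup.closure_le _).mpr ?_
    rintro y ⟨s, hs, v, hv, rfl⟩
    show sp (ρ s • v - v) = 0
    rw [map_sub, hin s hs, sub_self]
  exact h hc

/-- divisibility of the augmentation subgroup -/
theorem AugP_div {m n : ℕ} (hm : 0 < m) {c : Pic0 Qb F} (hc : c ∈ AugP A ρ n) :
    ∃ c' ∈ AugP A ρ (m * n), m • c' = c := by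
  have h : AugP A ρ n ≤ (AugP A ρ (m * n)).map (nsmulAddMonoidHom m) := by
    refine (AddSubgroup.closure_le _).mpr ?_
    rintro y ⟨s, hs, v, hv, rfl⟩
    obtain ⟨v', rfl⟩ := BaseChangeFF.pic0_divisible Qb F m hm v
    refine ⟨ρ s • v' - v', AddSubgroup.subset_closure ⟨s, hs, v', ?_, rfl⟩, ?_⟩
    · rw [mul_comm, mul_smul, hv]
    · show m • (ρ s • v' - v') = _
      rw [nsmul_sub]
      congr 1
      exact (map_nsmul (DistribSMul.toAddMonoidHom (Pic0 Qb F) (ρ s)) m v').symm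
  exact h hc

/-- **The `p ^ n`-torsion with trivial specialization.** -/
theorem pnTor (hA : A.LiesOverPrime p) (hp2 : p ≠ 2) (h𝔇 : 𝔇.A = A) (hr : 𝔇.IsFullRed r)
    (hρ : ∀ σ a, SemilinearAut.baseAut (ρ σ) a = σ a) (hP₀ : ∀ σ, ρ σ • P₀ = P₀)
    (hbas : HasBasis 𝔇 P₀ ρ) {X : Type} [AddCommGroup X] (sp : Pic0 Qb F →+ X)
    (hsp : ∀ y, sp y = 0 → SpZ r y)
    (hin : ∀ s ∈ A.inertiaSubgroupIn ℚ, ∀ y, sp (ρ s • y) = sp y)
    (hfin : Finite (tors Qb F p)) (n : ℕ) {x : Pic0 Qb F} (hx : p ^ n • x = 0)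
    (hx0 : sp x = 0) : x ∈ AugP A ρ (p ^ n) := by
  induction n generalizing x with
  | zero =>
    rw [pow_zero, one_smul] at hx
    rw [hx]
    exact zero_mem _
  | succ n ih =>
    have h1 : p • x ∈ AugP A ρ (p ^ n) := ih (by rw [smul_smul, ← pow_succ]; exact hx)
      (by rw [map_nsmul, hx0, smul_zero])
    obtain ⟨c, hc, hcx⟩ := AugP_div hp.out.pos h1
    rw [← pow_succ'] at hc
    have h2 : x - c ∈ AugP A ρ p := pTor hA hp2 h𝔇 hr hρ hP₀ hbas sp hsp hin hfin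
      (by rw [nsmul_sub, hcx, sub_self]) (by rw [map_sub, hx0, AugP_sp sp hin hc, sub_zero])
    have h3 := add_mem (AugP_mono (dvd_pow_self p (Nat.succ_ne_zero n)) h2) hc
    rwa [sub_add_cancel] at h3

end Fermat.Agent.OrdO
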