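import Fermat.Agent.FlatJ.Misc
import Fermat.Agent.FlatJ.Norms

/-!
# Values of families of functions on effective divisors
-/

set_option autoImplicit false
set_option linter.unusedSectionVars false

noncomputable section

open AlgebraicCurve Module

namespace Fermat.Agent.OrdO

open Fermat.Agent.FunField Fermat.Agent.FunField.PlaceLemmas Fermat.Agent.S27C
  Fermat.Agent.TorsInj Fermat.Agent.Deuring Fermat.Agent.FlatJ

attribute [local instance] Fermat.Agent.WeilPairing.isCurveOver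

section Alg

variable {A : Type*} [CommRing A] {ι : Type*} [Fintype ι]

/-- Values of polynomials with close coefficients. -/
theorem eval_sub_mem {J₁ J₂ : Ideal A} (P P' : MvPolynomial ι A)
    (h0 : MvPolynomial.coeff 0 P = MvPolynomial.coeff 0 P')
    (h : ∀ s, MvPolynomial.coeff s P - MvPolynomial.coeff s P' ∈ J₁) (μ : ι → A)
    (hμ : ∀ i, μ i ∈ J₂) : MvPolynomial.eval μ P - MvPolynomial.eval μ P' ∈ J₁ * J₂ := by
  classical
  rw [← map_sub, MvPolynomial.eval_eq']
  refine Ideal.sum_mem _ fun s _ => ?_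
  rw [MvPolynomial.coeff_sub]
  by_cases hs : s = 0
  · rw [hs, h0, sub_self, zero_mul]
    exact Ideal.zero_mem _
  · refine Ideal.mul_mem_mul (h s) ?_
    obtain ⟨i, hi⟩ : ∃ i, s i ≠ 0 := by
      by_contra hcon
      push Not at hcon
      exact hs (Finsupp.ext hcon)
    rw [← Finset.mul_prod_erase _ _ (Finset.mem_univ i)]
    exact Ideal.mul_mem_right _ _ (Ideal.pow_mem_of_mem _ (hμ i) _ (Nat.pos_of_ne_zero hi))

end Alg

variable {L k F F₁ : Type} [Field L] [Field k] [Field F] [Field F₁] [Algebra L F]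
  [Algebra k F₁] [IsFF L F] [IsFF k F₁] [IsAlgClosed L] [IsAlgClosed k]
  {𝔇 : Data L k F F₁} {r : Place L F → Place k F₁}
  {ι : Type} [Fintype ι]

/-- constants as elements of `A` -/
def toA (𝔇 : Data L k F F₁) (b : L) : 𝔇.A := by
  classical exact if h : b ∈ 𝔇.A then ⟨b, h⟩ else 0

theorem coe_toA {b : L} (h : b ∈ 𝔇.A) : (toA 𝔇 b : L) = b := by
  rw [toA, dif_pos h]

theorem toA_eq {b : L} (h : b ∈ 𝔇.A) : toA 𝔇 b = ⟨b, h⟩ := by
  rw [toA, dif_pos h]

/-- the linear form at a place -/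
def lin (v : ι → 𝔇.O) (Q : Place L F) : MvPolynomial ι 𝔇.A :=
  1 + ∑ i, MvPolynomial.C (toA 𝔇 (val Q (v i : F))) * MvPolynomial.X i

/-- the product of the linear forms over an effective divisor -/
def PE (v : ι → 𝔇.O) (n : Place L F →₀ ℕ) : MvPolynomial ι 𝔇.A := n.prod fun Q j => lin v Q ^ j

/-- natural multiplicities of an effective divisor -/
def nat {K E : Type} [Field K] [Field E] [Algebra K E] (D : Divisor K E) : Place K E →₀ ℕ :=
  D.mapRange Int.toNat rfl

theorem nat_apply {K E : Type} [Field K] [Field E] [Algebra K E] (D : Divisor K E)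
    (Q : Place K E) : nat D Q = (D Q).toNat := rfl

theorem nat_ne_zero {K E : Type} [Field K] [Field E] [Algebra K E] {D : Divisor K E}
    {Q : Place K E} (h : nat D Q ≠ 0) : D Q ≠ 0 := by
  intro h0
  rw [nat_apply, h0] at h
  exact h rfl

theorem cast_nat {K E : Type} [Field K] [Field E] [Algebra K E] {D : Divisor K E} (hD : 0 ≤ D) :
    (nat D).mapRange (Nat.castAddMonoidHom ℤ) (map_zero _) = D := by
  ext Q
  exact Int.toNat_of_nonneg (Finsupp.le_def.1 hD Q)

theorem mapDomain_nat {D : Divisor L F} (hD : 0 ≤ D) :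
    Finsupp.mapDomain r (nat D) = nat (Finsupp.mapDomain r D) := by
  have h1 : (Finsupp.mapDomain r (nat D)).mapRange (Nat.castAddMonoidHom ℤ) (map_zero _) =
      Finsupp.mapDomain r D := by
    rw [← Finsupp.mapDomain_mapRange _ _ _ _ (map_add _), cast_nat hD]
  have h2 := cast_nat (Deuring.mapDomain_nonneg r hD)
  rw [← h1] at h2
  conv_rhs => rw [← h1]
  exact (Finsupp.mapRange_injective (Nat.castAddMonoidHom ℤ) (map_zero _)
    (fun a b h => Nat.cast_injective (R := ℤ) h) (by rw [h2])).symm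

theorem coeff_zero_PE (v : ι → 𝔇.O) (n : Place L F →₀ ℕ) :
    MvPolynomial.coeff 0 (PE v n) = 1 := by
  classical
  rw [← MvPolynomial.constantCoeff_eq, PE, Finsupp.prod, map_prod]
  refine Finset.prod_eq_one fun Q _ => ?_
  rw [map_pow, lin, map_add, map_one, map_sum]
  rw [Finset.sum_eq_zero fun i _ => by
    rw [map_mul, MvPolynomial.constantCoeff_X, mul_zero], add_zero, one_pow]

/-- evaluation -/
theorem evalDiv_eq (v : ι → 𝔇.O) {E : Divisor L F} (hE : 0 ≤ E)
    (hreg : ∀ Q, E Q ≠ 0 → ∀ i, ((v i : 𝔇.O) : F) ∈ Q.toValuationSubring)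
    (hval : ∀ Q, E Q ≠ 0 → ∀ i, val Q ((v i : 𝔇.O) : F) ∈ 𝔇.A) (μ : ι → 𝔇.A) :
    evalDiv (1 + ∑ i, (μ i : L) • ((v i : 𝔇.O) : F)) E =
      ((MvPolynomial.eval μ (PE v (nat E)) : 𝔇.A) : L) := by
  classical
  have h0 : evalDiv (1 + ∑ i, (μ i : L) • ((v i : 𝔇.O) : F)) E =
      E.prod fun P j => val P (1 + ∑ i, (μ i : L) • ((v i : 𝔇.O) : F)) ^ j.toNat := by
    unfold evalDiv
    refine Finsupp.prod_congr fun P _ => ?_
    have h1 : ((E P).toNat : ℤ) = E P := Int.toNat_of_nonneg (Finsupp.le_def.1 hE P)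
    conv_lhs => rw [← h1]
    rw [zpow_natCast]
  have h1 : PE v (nat E) = E.prod fun Q j => lin v Q ^ j.toNat := by
    rw [PE, nat, Finsupp.prod_mapRange_index (fun Q => pow_zero _)]
  rw [h0, h1, Finsupp.prod, Finsupp.prod, map_prod, SubmonoidClass.coe_finsetProd]
  refine Finset.prod_congr rfl fun Q hQ => ?_
  have hQ' := Finsupp.mem_support_iff.1 hQ
  rw [map_pow, SubmonoidClass.coe_pow]
  congr 1
  have h2 : ∀ s : Finset ι, (∑ i ∈ s, (μ i : L) • ((v i : 𝔇.O) : F)) ∈ Q.toValuationSubring ∧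
      val Q (∑ i ∈ s, (μ i : L) • ((v i : 𝔇.O) : F)) =
        ∑ i ∈ s, (μ i : L) * val Q ((v i : 𝔇.O) : F) := by
    intro s
    induction s using Finset.induction_on with
    | empty => simp [zero_mem]
    | insert i s hi ih =>
      have h3 : (μ i : L) • ((v i : 𝔇.O) : F) ∈ Q.toValuationSubring := by
        rw [Algebra.smul_def]
        exact mul_mem (Q.algebraMap_mem' _) (hreg Q hQ' i)
      rw [Finset.sum_insert hi, Finset.sum_insert hi]
      refine ⟨add_mem h3 ih.1, ?_⟩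
      rw [val_add Q h3 ih.1, ih.2, Algebra.smul_def,
        val_mul Q (Q.algebraMap_mem' _) (hreg Q hQ' i), val_algebraMap]
  rw [val_add Q (one_mem _) (h2 Finset.univ).1, val_one, (h2 Finset.univ).2, lin, map_add,
    map_one, map_sum, AddMemClass.coe_add, OneMemClass.coe_one, AddSubmonoidClass.coe_finsetSum]
  congr 1
  refine Finset.sum_congr rfl fun i _ => ?_
  rw [map_mul, MvPolynomial.eval_C, MvPolynomial.eval_X, MulMemClass.coe_mul,
    coe_toA (hval Q hQ' i), mul_comm]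

/-- reduction -/
theorem map_PE (hr : 𝔇.IsRed r) (v : ι → 𝔇.O) (n : Place L F →₀ ℕ)
    (hreg : ∀ Q, n Q ≠ 0 → ∀ Q', r Q' = r Q → ∀ i,
      ((v i : 𝔇.O) : F) ∈ Q'.toValuationSubring) :
    MvPolynomial.map 𝔇.π (PE v n) = (Finsupp.mapDomain r n).prod fun z j =>
      (1 + ∑ i, MvPolynomial.C (val z (𝔇.res (v i))) * MvPolynomial.X i) ^ j := by
  classical
  rw [Finsupp.prod_mapDomain_index (fun z => pow_zero _) (fun z a b => pow_add _ _ _), PE,
    Finsupp.prod, Finsupp.prod, map_prod]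
  refine Finset.prod_congr rfl fun Q hQ => ?_
  have hQ' := Finsupp.mem_support_iff.1 hQ
  rw [map_pow, lin, map_add, map_one, map_sum]
  congr 2
  refine Finset.sum_congr rfl fun i _ => ?_
  obtain ⟨ha, hval⟩ := val_red hr (v i) Q fun Q' hQ'' => hreg Q hQ' Q' hQ'' i
  rw [map_mul, MvPolynomial.map_C, MvPolynomial.map_X, hval, toA_eq ha]

/-- equivariance -/
theorem coeff_PE_fixed (v : ι → 𝔇.O) (n : Place L F →₀ ℕ)
    (hreg : ∀ Q, n Q ≠ 0 → ∀ i, ((v i : 𝔇.O) : F) ∈ Q.toValuationSubring)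
    (hval : ∀ Q, n Q ≠ 0 → ∀ i, val Q ((v i : 𝔇.O) : F) ∈ 𝔇.A)
    (g : SemilinearAut L F) (hg : ∀ i, g • ((v i : 𝔇.O) : F) = v i)
    (hn : Finsupp.mapDomain (g • ·) n = n) (s : ι →₀ ℕ) :
    SemilinearAut.baseAut g ((MvPolynomial.coeff s (PE v n) : 𝔇.A) : L) =
      ((MvPolynomial.coeff s (PE v n) : 𝔇.A) : L) := by
  classical
  let PL : (Place L F →₀ ℕ) → MvPolynomial ι L := fun n => n.prod fun Q j =>
    (1 + ∑ i, MvPolynomial.C (val Q ((v i : 𝔇.O) : F)) * MvPolynomial.X i) ^ j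
  have h1 : MvPolynomial.map 𝔇.A.subtype (PE v n) = PL n := by
    simp only [PL]
    rw [PE, Finsupp.prod, Finsupp.prod, map_prod]
    refine Finset.prod_congr rfl fun Q hQ => ?_
    have hQ' := Finsupp.mem_support_iff.1 hQ
    rw [map_pow, lin, map_add, map_one, map_sum]
    congr 2
    refine Finset.sum_congr rfl fun i _ => ?_
    rw [map_mul, MvPolynomial.map_C, MvPolynomial.map_X]
    congr 2
    exact coe_toA (hval Q hQ' i)
  have h2 : MvPolynomial.map ((SemilinearAut.baseAut g : L ≃+* L) : L →+* L) (PL n) = PL n := by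
    conv_rhs => rw [← hn]
    simp only [PL]
    rw [Finsupp.prod_mapDomain_index_inj (MulAction.injective g), Finsupp.prod, Finsupp.prod,
      map_prod]
    refine Finset.prod_congr rfl fun Q hQ => ?_
    have hQ' := Finsupp.mem_support_iff.1 hQ
    rw [map_pow, map_add, map_one, map_sum]
    congr 2
    refine Finset.sum_congr rfl fun i _ => ?_
    rw [map_mul, MvPolynomial.map_C, MvPolynomial.map_X]
    congr 2
    have h3 := val_smul g Q (hreg Q hQ' i)
    rw [hg] at h3
    exact h3.symm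
  have h3 : ((MvPolynomial.coeff s (PE v n) : 𝔇.A) : L) = MvPolynomial.coeff s (PL n) := by
    rw [← h1, MvPolynomial.coeff_map]
    rfl
  rw [h3]
  conv_rhs => rw [← h2, MvPolynomial.coeff_map]
  rfl

end Fermat.Agent.OrdO
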